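import Mathlib

set_option autoImplicit false

/-!
# Period "polynomials" by first derivatives only (core calculus for S22)

Everything is stated for plain functions `ℂ → ℂ` on the open upper half plane `{w | 0 < w.im}` and
an abstract "primitive tower" `F : ℕ → ℂ → ℂ` with `F (j+1)' = F j` there.
-/

namespace Fermat.Agent.S22.PeriodCore

open Complex Finset Filter Topology

/-- Homogeneous Eichler kernel `Σ_{j ≤ m} m!/(m-j)! · F_{j+1}(w) (x - w y)^{m-j} y^j`;
for a primitive tower `F (j+1)' = F j` this is the primitive in `w` of `(x - w y)^m F_0(w)`. -/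
noncomputable def hker (m : ℕ) (F : ℕ → ℂ → ℂ) (w x y : ℂ) : ℂ :=
  ∑ j ∈ range (m + 1), (m.descFactorial j : ℂ) * F (j + 1) w * (x - w * y) ^ (m - j) * y ^ j

theorem hasDerivAt_hker (m : ℕ) (F : ℕ → ℂ → ℂ) (w x y : ℂ)
    (hF : ∀ j ≤ m, HasDerivAt (F (j + 1)) (F j w) w) :
    HasDerivAt (fun w => hker m F w x y) ((x - w * y) ^ m * F 0 w) w := by
  have hpow : ∀ n : ℕ, HasDerivAt (fun w : ℂ => (x - w * y) ^ n)
      ((n : ℂ) * (x - w * y) ^ (n - 1) * (-y)) w := by
    intro n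
    have h1 : HasDerivAt (fun w : ℂ => x - w * y) (-y) w := by
      simpa using ((hasDerivAt_id w).mul_const y).const_sub x
    simpa using h1.fun_pow n
  have hterm : ∀ j ∈ range (m + 1), HasDerivAt
      (fun w => (m.descFactorial j : ℂ) * F (j + 1) w * (x - w * y) ^ (m - j) * y ^ j)
      ((m.descFactorial j : ℂ) * F j w * (x - w * y) ^ (m - j) * y ^ j
        - (m.descFactorial (j + 1) : ℂ) * F (j + 1) w * (x - w * y) ^ (m - (j + 1)) * y ^ (j + 1))
      w := by
    intro j hj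
    have hj' : j ≤ m := Nat.lt_succ_iff.mp (mem_range.mp hj)
    have h := (((hF j hj').const_mul (m.descFactorial j : ℂ)).mul (hpow (m - j))).mul_const (y ^ j)
    refine h.congr_deriv ?_
    rw [Nat.descFactorial_succ]
    have : m - (j + 1) = m - j - 1 := by omega
    rw [this]
    push_cast
    ring
  have hsum := HasDerivAt.sum hterm
  have heq : (fun w => hker m F w x y) = ∑ j ∈ range (m + 1),
      fun w => (m.descFactorial j : ℂ) * F (j + 1) w * (x - w * y) ^ (m - j) * y ^ j := by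
    funext w
    simp [hker, Finset.sum_apply]
  rw [heq]
  refine hsum.congr_deriv ?_
  rw [Finset.sum_range_sub' (fun j => (m.descFactorial j : ℂ) * F j w * (x - w * y) ^ (m - j) * y ^ j)]
  simp [Nat.descFactorial_self]
  ring

/-- Value on the diagonal `(x, y) = (w, 1)`. -/
theorem hker_diag (m : ℕ) (F : ℕ → ℂ → ℂ) (w : ℂ) :
    hker m F w w 1 = (m.factorial : ℂ) * F (m + 1) w := by
  unfold hker
  rw [Finset.sum_eq_single m]
  · simp [Nat.descFactorial_self]
  · intro j hj hjm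
    have hj' : j < m := lt_of_le_of_ne (Nat.lt_succ_iff.mp (mem_range.mp hj)) hjm
    have : m - j ≠ 0 := by omega
    simp [this]
  · intro h
    exact absurd (mem_range.mpr (Nat.lt_succ_self m)) h

/-- Homogeneity of degree `m` in `(x, y)`. -/
theorem hker_smul (m : ℕ) (F : ℕ → ℂ → ℂ) (w x y t : ℂ) :
    hker m F w (t * x) (t * y) = t ^ m * hker m F w x y := by
  unfold hker
  rw [Finset.mul_sum]
  refine Finset.sum_congr rfl fun j hj => ?_
  have hj' : j ≤ m := Nat.lt_succ_iff.mp (mem_range.mp hj)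
  have h1 : t * x - w * (t * y) = t * (x - w * y) := by ring
  have h2 : t ^ m = t ^ (m - j) * t ^ j := by rw [← pow_add]; congr 1; omega
  rw [h1, h2, mul_pow, mul_pow]
  ring

/-! ### Möbius maps with real coefficients -/

/-- Möbius map `(a w + b)/(c w + d)`. -/
noncomputable def mob (a b c d : ℝ) (w : ℂ) : ℂ := ((a : ℂ) * w + b) / ((c : ℂ) * w + d)

theorem denom_ne_zero {a b c d : ℝ} (hD : 0 < a * d - b * c) {w : ℂ} (hw : 0 < w.im) :
    (c : ℂ) * w + d ≠ 0 := by
  intro h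
  have him := congrArg Complex.im h
  have hre := congrArg Complex.re h
  simp at him hre
  rcases him with hc | hw0
  · subst hc
    simp at hre
    subst hre
    simp at hD
  · exact (ne_of_gt hw) hw0

theorem im_mob {a b c d : ℝ} (hD : 0 < a * d - b * c) {w : ℂ} (hw : 0 < w.im) :
    (mob a b c d w).im = (a * d - b * c) * w.im / Complex.normSq ((c : ℂ) * w + d) := by
  have hne := denom_ne_zero hD hw
  unfold mob
  rw [Complex.div_im]
  have hns : Complex.normSq ((c : ℂ) * w + d) ≠ 0 := by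
    simpa [Complex.normSq_eq_zero] using hne
  field_simp
  simp
  ring

theorem im_mob_pos {a b c d : ℝ} (hD : 0 < a * d - b * c) {w : ℂ} (hw : 0 < w.im) :
    0 < (mob a b c d w).im := by
  rw [im_mob hD hw]
  have hne := denom_ne_zero hD hw
  have hns : 0 < Complex.normSq ((c : ℂ) * w + d) := Complex.normSq_pos.mpr hne
  positivity

theorem hasDerivAt_mob {a b c d : ℝ} (hD : 0 < a * d - b * c) {w : ℂ} (hw : 0 < w.im) :
    HasDerivAt (mob a b c d) (((a * d - b * c : ℝ) : ℂ) / ((c : ℂ) * w + d) ^ 2) w := by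
  have hne := denom_ne_zero hD hw
  have h1 : HasDerivAt (fun w : ℂ => (a : ℂ) * w + b) (a : ℂ) w := by
    simpa using ((hasDerivAt_id w).const_mul (a : ℂ)).add_const (b : ℂ)
  have h2 : HasDerivAt (fun w : ℂ => (c : ℂ) * w + d) (c : ℂ) w := by
    simpa using ((hasDerivAt_id w).const_mul (c : ℂ)).add_const (d : ℂ)
  have h := h1.div h2 hne
  refine h.congr_deriv ?_
  push_cast
  field_simp
  ring

theorem mob_lin {a b c d : ℝ} (hD : 0 < a * d - b * c) {w : ℂ} (hw : 0 < w.im) (x y : ℂ) :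
    ((a : ℂ) * x + b * y) - mob a b c d w * ((c : ℂ) * x + d * y)
      = ((a * d - b * c : ℝ) : ℂ) * (x - w * y) / ((c : ℂ) * w + d) := by
  have hne := denom_ne_zero hD hw
  unfold mob
  rw [div_mul_eq_mul_div, eq_div_iff hne, sub_mul, div_mul_cancel₀ _ hne]
  push_cast
  ring

theorem mob_mul {a b c d a' b' c' d' : ℝ} (hD : 0 < a * d - b * c) (hD' : 0 < a' * d' - b' * c')
    {w : ℂ} (hw : 0 < w.im) :
    mob (a * a' + b * c') (a * b' + b * d') (c * a' + d * c') (c * b' + d * d') w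
      = mob a b c d (mob a' b' c' d' w) := by
  have hne' := denom_ne_zero hD' hw
  have hw' := im_mob_pos hD' hw
  have hne := denom_ne_zero hD hw'
  unfold mob at hne ⊢
  have key : (c : ℂ) * (((a' : ℂ) * w + b') / ((c' : ℂ) * w + d')) + d
      = (((c * a' + d * c' : ℝ) : ℂ) * w + ((c * b' + d * d' : ℝ) : ℂ)) / ((c' : ℂ) * w + d') := by
    rw [eq_div_iff hne', add_mul, mul_assoc, div_mul_cancel₀ _ hne']
    push_cast
    ring
  have key2 : (a : ℂ) * (((a' : ℂ) * w + b') / ((c' : ℂ) * w + d')) + b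
      = (((a * a' + b * c' : ℝ) : ℂ) * w + ((a * b' + b * d' : ℝ) : ℂ)) / ((c' : ℂ) * w + d') := by
    rw [eq_div_iff hne', add_mul, mul_assoc, div_mul_cancel₀ _ hne']
    push_cast
    ring
  rw [key2, key, div_div_div_cancel_right₀ hne']

/-! ### The period function and its independence of the base point -/

/-- `F` is a primitive tower on the upper half plane up to height `m + 1`. -/
def IsTower (m : ℕ) (F : ℕ → ℂ → ℂ) : Prop :=
  ∀ j ≤ m, ∀ w : ℂ, 0 < w.im → HasDerivAt (F (j + 1)) (F j w) w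

/-- `ft = f ∣[m+2] !![a, b; c, d]` on the upper half plane, with Mathlib's normalisation
`det ^ (k - 1) * (c w + d) ^ (-k)`, `k = m + 2`. -/
def IsSlash (m : ℕ) (f ft : ℂ → ℂ) (a b c d : ℝ) : Prop :=
  ∀ w : ℂ, 0 < w.im →
    ft w = ((a * d - b * c : ℝ) : ℂ) ^ (m + 1) * f (mob a b c d w) / ((c : ℂ) * w + d) ^ (m + 2)

/-- The period function: transported kernel of `F` minus the kernel of the slashed tower `Ft`. -/
noncomputable def per (m : ℕ) (F Ft : ℕ → ℂ → ℂ) (a b c d : ℝ) (w x y : ℂ) : ℂ :=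
  hker m F (mob a b c d w) ((a : ℂ) * x + b * y) ((c : ℂ) * x + d * y) - hker m Ft w x y

theorem hasDerivAt_per {m : ℕ} {F Ft : ℕ → ℂ → ℂ} {a b c d : ℝ} (hD : 0 < a * d - b * c)
    (hF : IsTower m F) (hFt : IsTower m Ft) (hs : IsSlash m (F 0) (Ft 0) a b c d)
    {w : ℂ} (hw : 0 < w.im) (x y : ℂ) :
    HasDerivAt (fun w => per m F Ft a b c d w x y) 0 w := by
  have hne := denom_ne_zero hD hw
  have hw' := im_mob_pos hD hw
  have h1 := hasDerivAt_hker m F (mob a b c d w) ((a : ℂ) * x + b * y) ((c : ℂ) * x + d * y)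
    (fun j hj => hF j hj _ hw')
  have h2 := HasDerivAt.comp w h1 (hasDerivAt_mob hD hw)
  have h3 := hasDerivAt_hker m Ft w x y (fun j hj => hFt j hj _ hw)
  have h4 := h2.sub h3
  refine h4.congr_deriv ?_
  rw [mob_lin hD hw, hs w hw]
  generalize ((a * d - b * c : ℝ) : ℂ) = Dc
  generalize F 0 (mob a b c d w) = f0
  generalize x - w * y = u
  generalize (c : ℂ) * w + d = Dn at hne
  rw [div_pow, mul_pow]
  field_simp
  ring

theorem per_const {m : ℕ} {F Ft : ℕ → ℂ → ℂ} {a b c d : ℝ} (hD : 0 < a * d - b * c)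
    (hF : IsTower m F) (hFt : IsTower m Ft) (hs : IsSlash m (F 0) (Ft 0) a b c d)
    {w w' : ℂ} (hw : 0 < w.im) (hw' : 0 < w'.im) (x y : ℂ) :
    per m F Ft a b c d w x y = per m F Ft a b c d w' x y := by
  have hopen : IsOpen {z : ℂ | 0 < z.im} := isOpen_lt continuous_const Complex.continuous_im
  have hconn : IsPreconnected {z : ℂ | 0 < z.im} := (convex_halfSpace_im_gt 0).isPreconnected
  refine hopen.is_const_of_deriv_eq_zero hconn (f := fun w => per m F Ft a b c d w x y)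
    (fun z hz => (hasDerivAt_per hD hF hFt hs hz x y).differentiableAt.differentiableWithinAt)
    (fun z hz => (hasDerivAt_per hD hF hFt hs hz x y).deriv) hw hw'

/-- Cocycle relation (pure algebra). -/
theorem per_mul {m : ℕ} (F F' F'' : ℕ → ℂ → ℂ) {a b c d a' b' c' d' : ℝ}
    (hD : 0 < a * d - b * c) (hD' : 0 < a' * d' - b' * c') {w : ℂ} (hw : 0 < w.im) (x y : ℂ) :
    per m F F'' (a * a' + b * c') (a * b' + b * d') (c * a' + d * c') (c * b' + d * d') w x y
      = per m F F' a b c d (mob a' b' c' d' w) ((a' : ℂ) * x + b' * y) ((c' : ℂ) * x + d' * y)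
        + per m F' F'' a' b' c' d' w x y := by
  unfold per
  rw [mob_mul hD hD' hw]
  have e1 : ((a * a' + b * c' : ℝ) : ℂ) * x + ((a * b' + b * d' : ℝ) : ℂ) * y
      = (a : ℂ) * ((a' : ℂ) * x + b' * y) + b * ((c' : ℂ) * x + d' * y) := by push_cast; ring
  have e2 : ((c * a' + d * c' : ℝ) : ℂ) * x + ((c * b' + d * d' : ℝ) : ℂ) * y
      = (c : ℂ) * ((a' : ℂ) * x + b' * y) + d * ((c' : ℂ) * x + d' * y) := by push_cast; ring
  rw [e1, e2]
  ring

/-- Value of the period function on the diagonal. -/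
theorem per_diag {m : ℕ} (F Ft : ℕ → ℂ → ℂ) {a b c d : ℝ} (hD : 0 < a * d - b * c)
    {w : ℂ} (hw : 0 < w.im) :
    per m F Ft a b c d w w 1
      = (m.factorial : ℂ) * (((c : ℂ) * w + d) ^ m * F (m + 1) (mob a b c d w) - Ft (m + 1) w) := by
  have hne := denom_ne_zero hD hw
  unfold per
  have e1 : (a : ℂ) * w + b * 1 = ((c : ℂ) * w + d) * mob a b c d w := by
    unfold mob
    rw [mul_div_cancel₀ _ hne, mul_one]
  have e2 : (c : ℂ) * w + d * 1 = ((c : ℂ) * w + d) * 1 := by ring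
  rw [e1, e2, hker_smul, hker_diag, hker_diag]
  ring

/-! ### Polynomial structure in `(x, y)` -/

/-- `φ` is a homogeneous polynomial function of degree `d` in `(x, y)`. -/
def IsHomPoly (d : ℕ) (φ : ℂ → ℂ → ℂ) : Prop :=
  ∃ r : ℕ → ℂ, ∀ x y, φ x y = ∑ t ∈ range (d + 1), r t * x ^ t * y ^ (d - t)

theorem IsHomPoly.add {d : ℕ} {φ ψ : ℂ → ℂ → ℂ} (h1 : IsHomPoly d φ) (h2 : IsHomPoly d ψ) :
    IsHomPoly d (fun x y => φ x y + ψ x y) := by
  obtain ⟨r, hr⟩ := h1
  obtain ⟨s, hs⟩ := h2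
  refine ⟨fun t => r t + s t, fun x y => ?_⟩
  beta_reduce
  rw [hr, hs, ← Finset.sum_add_distrib]
  exact Finset.sum_congr rfl fun t _ => by ring

theorem IsHomPoly.const_mul {d : ℕ} {φ : ℂ → ℂ → ℂ} (h1 : IsHomPoly d φ) (k : ℂ) :
    IsHomPoly d (fun x y => k * φ x y) := by
  obtain ⟨r, hr⟩ := h1
  refine ⟨fun t => k * r t, fun x y => ?_⟩
  beta_reduce
  rw [hr, Finset.mul_sum]
  exact Finset.sum_congr rfl fun t _ => by ring

theorem IsHomPoly.sub {d : ℕ} {φ ψ : ℂ → ℂ → ℂ} (h1 : IsHomPoly d φ) (h2 : IsHomPoly d ψ) :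
    IsHomPoly d (fun x y => φ x y - ψ x y) := by
  have := h1.add (h2.const_mul (-1))
  refine (by simpa [sub_eq_add_neg] using this)

theorem isHomPoly_zero (d : ℕ) : IsHomPoly d (fun _ _ => 0) :=
  ⟨fun _ => 0, fun x y => by simp⟩

theorem IsHomPoly.sum {d : ℕ} {ι : Type*} (s : Finset ι) {φ : ι → ℂ → ℂ → ℂ}
    (h : ∀ i ∈ s, IsHomPoly d (φ i)) : IsHomPoly d (fun x y => ∑ i ∈ s, φ i x y) := by
  classical
  induction s using Finset.induction_on with
  | empty => simpa using isHomPoly_zero d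
  | insert i t hi IH =>
    have h1 := h i (Finset.mem_insert_self i t)
    have h2 := IH (fun j hj => h j (Finset.mem_insert_of_mem hj))
    have := h1.add h2
    refine (by simpa [Finset.sum_insert hi] using this)

theorem IsHomPoly.linear_mul {d : ℕ} {φ : ℂ → ℂ → ℂ} (h : IsHomPoly d φ) (α β : ℂ) :
    IsHomPoly (d + 1) (fun x y => (α * x + β * y) * φ x y) := by
  obtain ⟨r, hr⟩ := h
  refine ⟨fun t => (if t = 0 then 0 else α * r (t - 1)) + (if t ≤ d then β * r t else 0),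
    fun x y => ?_⟩
  beta_reduce
  rw [hr]
  have e1 : ∑ t ∈ range (d + 1 + 1), (if t = 0 then 0 else α * r (t - 1)) * x ^ t * y ^ (d + 1 - t)
      = ∑ t ∈ range (d + 1), α * r t * x ^ (t + 1) * y ^ (d - t) := by
    rw [Finset.sum_range_succ']
    simp
  have e2 : ∑ t ∈ range (d + 1 + 1), (if t ≤ d then β * r t else 0) * x ^ t * y ^ (d + 1 - t)
      = ∑ t ∈ range (d + 1), β * r t * x ^ t * y ^ (d - t + 1) := by
    rw [Finset.sum_range_succ]
    simp only [Nat.not_succ_le_self, if_false, zero_mul, add_zero]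
    refine Finset.sum_congr rfl fun t ht => ?_
    have ht' : t ≤ d := Nat.lt_succ_iff.mp (mem_range.mp ht)
    rw [if_pos ht']
    congr 2
    omega
  have e3 : ∑ t ∈ range (d + 1 + 1),
      ((if t = 0 then 0 else α * r (t - 1)) + (if t ≤ d then β * r t else 0)) * x ^ t
        * y ^ (d + 1 - t)
      = ∑ t ∈ range (d + 1 + 1), (if t = 0 then 0 else α * r (t - 1)) * x ^ t * y ^ (d + 1 - t)
        + ∑ t ∈ range (d + 1 + 1), (if t ≤ d then β * r t else 0) * x ^ t * y ^ (d + 1 - t) := by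
    rw [← Finset.sum_add_distrib]
    exact Finset.sum_congr rfl fun t _ => by ring
  rw [e3, e1, e2, Finset.mul_sum, ← Finset.sum_add_distrib]
  exact Finset.sum_congr rfl fun t _ => by ring

theorem isHomPoly_one : IsHomPoly 0 (fun _ _ => 1) :=
  ⟨fun _ => 1, fun x y => by simp⟩

theorem IsHomPoly.linear_pow_mul {d : ℕ} {φ : ℂ → ℂ → ℂ} (h : IsHomPoly d φ) (α β : ℂ) (p : ℕ) :
    IsHomPoly (d + p) (fun x y => (α * x + β * y) ^ p * φ x y) := by
  induction p with
  | zero => simpa using h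
  | succ p IH =>
    have := IH.linear_mul α β
    refine (by simpa [pow_succ, mul_assoc, mul_comm, mul_left_comm, add_assoc] using this)

theorem isHomPoly_hker (m : ℕ) (F : ℕ → ℂ → ℂ) (w α β γ δ : ℂ) :
    IsHomPoly m (fun x y => hker m F w (α * x + β * y) (γ * x + δ * y)) := by
  unfold hker
  refine IsHomPoly.sum _ fun j hj => ?_
  have hj' : j ≤ m := Nat.lt_succ_iff.mp (mem_range.mp hj)
  have h1 := ((isHomPoly_one.linear_pow_mul γ δ j).linear_pow_mul (α - w * γ) (β - w * δ) (m - j)).const_mul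
    ((m.descFactorial j : ℂ) * F (j + 1) w)
  have hdeg : 0 + j + (m - j) = m := by omega
  rw [hdeg] at h1
  obtain ⟨r, hr⟩ := h1
  refine ⟨r, fun x y => ?_⟩
  rw [← hr]
  ring

theorem isHomPoly_per (m : ℕ) (F Ft : ℕ → ℂ → ℂ) (a b c d : ℝ) (w : ℂ) :
    IsHomPoly m (fun x y => per m F Ft a b c d w x y) := by
  unfold per
  refine (isHomPoly_hker m F _ a b c d).sub ?_
  have := isHomPoly_hker m Ft w 1 0 0 1
  simpa using this

/-- A homogeneous polynomial function vanishing at all `(x, 1)`, `x ∈ ℤ`, vanishes at all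
`(X, 1)`, `X ∈ ℂ`. -/
theorem IsHomPoly.eq_zero_of_int {d : ℕ} {φ : ℂ → ℂ → ℂ} (h : IsHomPoly d φ)
    (hz : ∀ x : ℤ, φ x 1 = 0) (X : ℂ) : φ X 1 = 0 := by
  obtain ⟨r, hr⟩ := h
  set P : Polynomial ℂ := ∑ t ∈ range (d + 1), Polynomial.C (r t) * Polynomial.X ^ t with hP
  have heval : ∀ z : ℂ, P.eval z = φ z 1 := by
    intro z
    rw [hr, hP, Polynomial.eval_finsetSum]
    exact Finset.sum_congr rfl fun t _ => by simp
  have hP0 : P = 0 := by
    apply Polynomial.eq_zero_of_infinite_isRoot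
    have hinj : Function.Injective (fun x : ℤ => (x : ℂ)) := Int.cast_injective
    refine Set.Infinite.mono ?_ (Set.infinite_range_of_injective hinj)
    rintro _ ⟨x, rfl⟩
    show P.IsRoot (x : ℂ)
    rw [Polynomial.IsRoot, heval]
    exact hz x
  rw [← heval, hP0, Polynomial.eval_zero]

/-- If the period function vanishes at all integral `(x, 1)` then the top of the tower is
slash-compatible: `(c w + d)^m F_{m+1}(γ w) = Ft_{m+1}(w)`. -/
theorem top_eq_of_per_eq_zero {m : ℕ} {F Ft : ℕ → ℂ → ℂ} {a b c d : ℝ} (hD : 0 < a * d - b * c)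
    (hF : IsTower m F) (hFt : IsTower m Ft) (hs : IsSlash m (F 0) (Ft 0) a b c d)
    (hz : ∀ x : ℤ, per m F Ft a b c d I x 1 = 0) {w : ℂ} (hw : 0 < w.im) :
    ((c : ℂ) * w + d) ^ m * F (m + 1) (mob a b c d w) = Ft (m + 1) w := by
  have hI : 0 < (I : ℂ).im := by simp
  have h1 : per m F Ft a b c d I w 1 = 0 := (isHomPoly_per m F Ft a b c d I).eq_zero_of_int hz w
  have h2 : per m F Ft a b c d w w 1 = 0 := by
    rw [per_const hD hF hFt hs hw hI]
    exact h1
  rw [per_diag F Ft hD hw] at h2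
  have hfac : (m.factorial : ℂ) ≠ 0 := by exact_mod_cast m.factorial_ne_zero
  have h3 := (mul_eq_zero.mp h2).resolve_left hfac
  exact sub_eq_zero.mp h3

/-! ### Vanishing for upper triangular matrices -/

/-- Faster-than-polynomial decay along every ray `t ↦ α t i + β` (`α > 0`). -/
def VDecay (f : ℂ → ℂ) : Prop :=
  ∀ (n : ℕ) (α β : ℝ), 0 < α →
    Tendsto (fun t : ℝ => t ^ n * ‖f (((α * t : ℝ) : ℂ) * I + (β : ℂ))‖) atTop (𝓝 0)

/-- Exponential decay in the imaginary part implies `VDecay`. -/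
theorem vDecay_of_exp {f : ℂ → ℂ} {C κ : ℝ} (hκ : 0 < κ)
    (h : ∀ z : ℂ, 1 ≤ z.im → ‖f z‖ ≤ C * Real.exp (-κ * z.im)) : VDecay f := by
  intro n α β hα
  have hακ : 0 < κ * α := mul_pos hκ hα
  have h0 : Tendsto (fun t : ℝ => C * (t ^ n * Real.exp (-(κ * α) * t))) atTop (𝓝 0) := by
    have := (Real.tendsto_pow_mul_exp_neg_atTop_nhds_zero n).comp
      (tendsto_id.const_mul_atTop hακ)
    have h2 : Tendsto (fun t : ℝ => (κ * α) ^ n * (t ^ n * Real.exp (-(κ * α) * t))) atTop (𝓝 0) := by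
      refine this.congr fun t => ?_
      simp only [Function.comp, id]
      rw [mul_pow]
      ring_nf
    have h3 := h2.const_mul (C * ((κ * α) ^ n)⁻¹)
    rw [mul_zero] at h3
    refine h3.congr fun t => ?_
    have hne : (κ * α) ^ n ≠ 0 := pow_ne_zero _ hακ.ne'
    field_simp
  refine squeeze_zero' ?_ ?_ h0
  · filter_upwards [eventually_ge_atTop (0 : ℝ)] with t ht
    positivity
  · filter_upwards [eventually_ge_atTop (1 / α), eventually_ge_atTop (0 : ℝ)] with t ht ht0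
    have him : (((α * t : ℝ) : ℂ) * I + (β : ℂ)).im = α * t := by simp
    have h1 : 1 ≤ (((α * t : ℝ) : ℂ) * I + (β : ℂ)).im := by
      rw [him]
      have := mul_le_mul_of_nonneg_left ht hα.le
      rwa [mul_one_div_cancel hα.ne'] at this
    have h2 := h _ h1
    rw [him] at h2
    calc t ^ n * ‖f (((α * t : ℝ) : ℂ) * I + (β : ℂ))‖
        ≤ t ^ n * (C * Real.exp (-κ * (α * t))) :=
          mul_le_mul_of_nonneg_left h2 (pow_nonneg ht0 n)
      _ = C * (t ^ n * Real.exp (-(κ * α) * t)) := by ring_nf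

theorem VDecay.tendsto_mul {f : ℂ → ℂ} (hf : VDecay f) {α β : ℝ} (hα : 0 < α) (g : ℝ → ℂ)
    (C : ℝ) (n : ℕ) (hg : ∀ t : ℝ, 1 ≤ t → ‖g t‖ ≤ C * t ^ n) :
    Tendsto (fun t : ℝ => g t * f (((α * t : ℝ) : ℂ) * I + (β : ℂ))) atTop (𝓝 0) := by
  have h0 := (hf n α β hα).const_mul C
  rw [mul_zero] at h0
  refine squeeze_zero_norm' ?_ h0
  filter_upwards [eventually_ge_atTop (1 : ℝ)] with t ht
  rw [norm_mul]
  calc ‖g t‖ * ‖f (((α * t : ℝ) : ℂ) * I + (β : ℂ))‖
      ≤ (C * t ^ n) * ‖f (((α * t : ℝ) : ℂ) * I + (β : ℂ))‖ :=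
        mul_le_mul_of_nonneg_right (hg t ht) (norm_nonneg _)
    _ = C * (t ^ n * ‖f (((α * t : ℝ) : ℂ) * I + (β : ℂ))‖) := by ring

theorem tendsto_hker_ray {m : ℕ} {F : ℕ → ℂ → ℂ} (hF : ∀ j ≤ m, VDecay (F (j + 1)))
    {α β : ℝ} (hα : 0 < α) (x y : ℂ) :
    Tendsto (fun t : ℝ => hker m F (((α * t : ℝ) : ℂ) * I + (β : ℂ)) x y) atTop (𝓝 0) := by
  unfold hker
  have : (0 : ℂ) = ∑ j ∈ range (m + 1), (0 : ℂ) := by simp
  rw [this]
  refine tendsto_finsetSum _ fun j hj => ?_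
  have hj' : j ≤ m := Nat.lt_succ_iff.mp (mem_range.mp hj)
  set K : ℝ := ‖x‖ + (α + |β|) * ‖y‖ with hK
  have hK0 : 0 ≤ K := by positivity
  have hb : ∀ t : ℝ, 1 ≤ t →
      ‖(m.descFactorial j : ℂ) * (x - (((α * t : ℝ) : ℂ) * I + (β : ℂ)) * y) ^ (m - j) * y ^ j‖
        ≤ ((m.descFactorial j : ℝ) * K ^ (m - j) * ‖y‖ ^ j) * t ^ (m - j) := by
    intro t ht
    have ht0 : 0 ≤ t := le_trans zero_le_one ht
    have hw : ‖(((α * t : ℝ) : ℂ) * I + (β : ℂ))‖ ≤ (α + |β|) * t := by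
      calc ‖(((α * t : ℝ) : ℂ) * I + (β : ℂ))‖ ≤ ‖((α * t : ℝ) : ℂ) * I‖ + ‖(β : ℂ)‖ := norm_add_le _ _
        _ = α * t + |β| := by
          rw [norm_mul, Complex.norm_I, mul_one, Complex.norm_real, Complex.norm_real,
            Real.norm_eq_abs, Real.norm_eq_abs, abs_of_nonneg (mul_nonneg hα.le ht0)]
        _ ≤ α * t + |β| * t := by
          have := mul_le_mul_of_nonneg_left ht (abs_nonneg β)
          rw [mul_one] at this
          linarith
        _ = (α + |β|) * t := by ring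
    have h1 : ‖x - (((α * t : ℝ) : ℂ) * I + (β : ℂ)) * y‖ ≤ K * t := by
      calc ‖x - (((α * t : ℝ) : ℂ) * I + (β : ℂ)) * y‖
          ≤ ‖x‖ + ‖(((α * t : ℝ) : ℂ) * I + (β : ℂ)) * y‖ := norm_sub_le _ _
        _ ≤ ‖x‖ * t + ((α + |β|) * t) * ‖y‖ := by
          rw [norm_mul]
          have h2 := mul_le_mul_of_nonneg_right hw (norm_nonneg y)
          have h3 := mul_le_mul_of_nonneg_left ht (norm_nonneg x)
          rw [mul_one] at h3
          linarith
        _ = K * t := by rw [hK]; ring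
    rw [norm_mul, norm_mul, norm_pow, norm_pow, Complex.norm_natCast]
    have h4 : ‖x - (((α * t : ℝ) : ℂ) * I + (β : ℂ)) * y‖ ^ (m - j) ≤ (K * t) ^ (m - j) :=
      pow_le_pow_left₀ (norm_nonneg _) h1 _
    calc (m.descFactorial j : ℝ) * ‖x - (((α * t : ℝ) : ℂ) * I + (β : ℂ)) * y‖ ^ (m - j) * ‖y‖ ^ j
        ≤ (m.descFactorial j : ℝ) * (K * t) ^ (m - j) * ‖y‖ ^ j := by
          gcongr
      _ = ((m.descFactorial j : ℝ) * K ^ (m - j) * ‖y‖ ^ j) * t ^ (m - j) := by
          rw [mul_pow]; ring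
  have := (hF j hj').tendsto_mul hα (β := β) _ _ _ hb
  refine this.congr fun t => ?_
  ring

/-- The period function of an upper triangular matrix vanishes when both towers decay. -/
theorem per_eq_zero_of_upper {m : ℕ} {F Ft : ℕ → ℂ → ℂ} {a b d : ℝ} (hD : 0 < a * d - b * 0)
    (hF : IsTower m F) (hFt : IsTower m Ft) (hs : IsSlash m (F 0) (Ft 0) a b 0 d)
    (hdF : ∀ j ≤ m, VDecay (F (j + 1))) (hdFt : ∀ j ≤ m, VDecay (Ft (j + 1)))
    {w : ℂ} (hw : 0 < w.im) (x y : ℂ) :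
    per m F Ft a b 0 d w x y = 0 := by
  have had : 0 < a * d := by simpa using hD
  have hd : d ≠ 0 := by
    rintro rfl
    simp at had
  have hα : 0 < a / d := by
    rcases lt_or_gt_of_ne hd with h | h
    · have ha : a < 0 := by
        by_contra hcon
        have := mul_nonpos_of_nonneg_of_nonpos (not_lt.mp hcon) h.le
        linarith
      exact div_pos_of_neg_of_neg ha h
    · have ha : 0 < a := by
        by_contra hcon
        have := mul_nonpos_of_nonpos_of_nonneg (not_lt.mp hcon) h.le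
        linarith
      exact div_pos ha h
  have hI : 0 < (I : ℂ).im := by simp
  -- the function of `t` is eventually constant equal to the value at `w`
  have hconst : ∀ t : ℝ, 0 < t →
      per m F Ft a b 0 d (((1 * t : ℝ) : ℂ) * I + ((0 : ℝ) : ℂ)) x y = per m F Ft a b 0 d w x y := by
    intro t ht
    refine per_const hD hF hFt hs ?_ hw x y
    simpa using ht
  have hmob : ∀ t : ℝ, mob a b 0 d (((1 * t : ℝ) : ℂ) * I + ((0 : ℝ) : ℂ))
      = (((a / d * t : ℝ) : ℂ) * I + ((b / d : ℝ) : ℂ)) := by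
    intro t
    unfold mob
    have hdc : (d : ℂ) ≠ 0 := by exact_mod_cast hd
    have h1 : (a : ℂ) / d * d = a := div_mul_cancel₀ _ hdc
    have h2 : (b : ℂ) / d * d = b := div_mul_cancel₀ _ hdc
    have h3 : ((0 : ℝ) : ℂ) * (((1 * t : ℝ) : ℂ) * I + ((0 : ℝ) : ℂ)) + (d : ℂ) = d := by simp
    rw [h3, div_eq_iff hdc]
    push_cast
    linear_combination (-(t * I : ℂ)) * h1 - h2
  have hlim : Tendsto (fun t : ℝ => per m F Ft a b 0 d (((1 * t : ℝ) : ℂ) * I + ((0 : ℝ) : ℂ)) x y)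
      atTop (𝓝 0) := by
    unfold per
    have h1 := tendsto_hker_ray hdF hα (β := b / d) ((a : ℂ) * x + b * y) (((0 : ℝ) : ℂ) * x + d * y)
    have h2 := tendsto_hker_ray hdFt (one_pos) (β := 0) x y
    have h3 := h1.sub h2
    rw [sub_zero] at h3
    refine h3.congr fun t => ?_
    rw [hmob]
  have hlim2 : Tendsto (fun t : ℝ => per m F Ft a b 0 d (((1 * t : ℝ) : ℂ) * I + ((0 : ℝ) : ℂ)) x y)
      atTop (𝓝 (per m F Ft a b 0 d w x y)) := by
    refine tendsto_const_nhds.congr' ?_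
    filter_upwards [eventually_gt_atTop (0 : ℝ)] with t ht
    exact (hconst t ht).symm
  exact tendsto_nhds_unique hlim2 hlim

end Fermat.Agent.S22.PeriodCore
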